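import Fermat.Prelude.Def_ModularCurve_HeckeModule
import Fermat.Agent.S37.HI.Modular

/-!
# S37 leaf HI: the Hecke inputs hold for the modular function fields over `ℚ̄`

FROZEN STATEMENT (package HI).  PROVED (helper7722): see `Fermat/Agent/S37/HI/{Local,Generic,Modular}.lean`
(and `HI/HeckeDiv.lean` for the API to compute with `T_ℓ`).
-/

set_option autoImplicit false

namespace Fermat.Agent.S37

theorem heckeInputs (N ℓ : ℕ) [NeZero N] [NeZero ℓ] :
    ModularCurve.HeckeInputsAlong (AlgebraicClosure ℚ) N ℓ :=
  HI.heckeInputsAlong N ℓ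

end Fermat.Agent.S37
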