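import Fermat.Prelude.Def_ModularCurve_HeckeModule
import Fermat.Prelude.Def_ModularCurve_ReductionModL
import Fermat.Agent.S37.E1_3831.Congruence

/-!
# S37 leaf KRON: the generalised Kronecker congruence

`ℓ ∤ N` prime, `A` a valuation subring of `ℚ̄` over `ℓ`, `k` its residue field, `τ` the Frobenius
`x ↦ x^ℓ` of `k`.  For `f ∈ F_N(ℚ̄)` with `A`-integral `q`-expansion `y`, the norm
`g := Norm_{F_{Nℓ}/α(F_N)}(β f)` (`α` = inclusion, `β f = f(q^ℓ)`; the function with
`T_ℓ(div f) = div g`) has an `A`-integral `q`-expansion `y'`, and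

    y' mod 𝔪 = (τ⁻¹ (y mod 𝔪))^ℓ * τ (y mod 𝔪)          (τ acting on coefficients).

Proof (notes of helper231 (E1), (E2); helper5442 (N2), (N3)):
`g(q^ℓ) = f(q^(ℓ²)) * ∏_{i<ℓ} f(ζ^i q)` (the `ℓ+1` conjugates of `f(q^ℓ)` over `F_N`), `ζ ≡ 1 mod 𝔪`,
`fbar(q)^ℓ = (τ fbar)(q^ℓ)`, `fbar(q^ℓ) = (τ⁻¹ fbar)(q)^ℓ`.

FROZEN STATEMENT (package KRON).  Proof: helper3831, library `Fermat/Agent/S37/E1_3831/*`
(`exists_integral_heckeNorm_frobenius`).
-/

set_option autoImplicit false

namespace Fermat.Agent.S37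

open ModularCurve AlgebraicCurve

theorem kron (N : ℕ) [NeZero N] (ℓ : ℕ) [NeZero ℓ] (hℓ : ℓ.Prime) (hℓN : ¬ ℓ ∣ N)
    (A : ValuationSubring (AlgebraicClosure ℚ)) (hA : A.LiesOverPrime ℓ)
    (τ : IsLocalRing.ResidueField A ≃+* IsLocalRing.ResidueField A) (hτ : ∀ x, τ x = x ^ ℓ)
    (y : LaurentSeries A) (hy : coeffMap A.subtype y ∈ modularFunctionFieldBar N) :
    ∃ y' : LaurentSeries A,
      coeffMap A.subtype y' =
        ((letI := algebraAlong (heckeAlphaBar (AlgebraicClosure ℚ) N ℓ)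
          Algebra.norm (modularFunctionFieldBar N)
            (heckeBetaBar (AlgebraicClosure ℚ) N ℓ ⟨coeffMap A.subtype y, hy⟩) :
              modularFunctionFieldBar N) : LaurentSeries (AlgebraicClosure ℚ)) ∧
      coeffMap (IsLocalRing.residue A) y' =
        (coeffMap (τ.symm : IsLocalRing.ResidueField A →+* IsLocalRing.ResidueField A)
            (coeffMap (IsLocalRing.residue A) y)) ^ ℓ *
          coeffMap (τ : IsLocalRing.ResidueField A →+* IsLocalRing.ResidueField A)
            (coeffMap (IsLocalRing.residue A) y) := by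
  have : CharP (IsLocalRing.ResidueField A) ℓ := E1_3831.charP_residueField A ℓ hℓ hA
  have : Fact ℓ.Prime := ⟨hℓ⟩
  have : ExpChar (IsLocalRing.ResidueField A) ℓ := ExpChar.prime hℓ
  obtain ⟨y', h1, h2⟩ := E1_3831.exists_integral_heckeNorm_frobenius N ℓ hℓ hℓN A hA y hy
  refine ⟨y', ?_, ?_⟩
  · rw [h1, E1_3831.heckeNorm_def]
  · have hfrob : frobenius (IsLocalRing.ResidueField A) ℓ
        = (τ : IsLocalRing.ResidueField A →+* IsLocalRing.ResidueField A) := by
      ext x
      rw [frobenius_def]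
      exact (hτ x).symm
    have hcomp : (frobenius (IsLocalRing.ResidueField A) ℓ).comp
        (τ.symm : IsLocalRing.ResidueField A →+* IsLocalRing.ResidueField A)
          = RingHom.id _ := by
      rw [hfrob]
      ext x
      simp
    have hpow : (coeffMap (τ.symm : IsLocalRing.ResidueField A →+* IsLocalRing.ResidueField A)
            (coeffMap (IsLocalRing.residue A) y)) ^ ℓ
          = qExpand (IsLocalRing.ResidueField A) ℓ (coeffMap (IsLocalRing.residue A) y) := by
      rw [E1_3831.pow_char_eq_qExpand,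
        coeffMap_coeffMap (frobenius (IsLocalRing.ResidueField A) ℓ)
          (τ.symm : IsLocalRing.ResidueField A →+* IsLocalRing.ResidueField A),
        hcomp, coeffMap_id]
    rw [h2, hpow, hfrob]

end Fermat.Agent.S37
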