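import Fermat.Agent.S37.RIEM.Lib

/-!
# S37 leaf RIEM: places of degree 1, degree of principal divisors, Riemann's inequality
for `modularFunctionFieldBar N` over `ℚ̄`

FROZEN STATEMENT (package RIEM); exactly the hypotheses `hdeg`, `hp0`, `γ`, `hR` of
`Fermat.Agent.S37.BH.eq_zero_of_bounded`.  Proved (helper6352) from `Fermat/Agent/S37/RIEM/Lib.lean`
(landed S24 place theory + Riemann library `Fermat/Agent/RR7222` of helper7222; `γ = genusFF`).
-/

set_option autoImplicit false

namespace Fermat.Agent.S37

open ModularCurve AlgebraicCurve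

theorem riemann_modular (N : ℕ) [NeZero N] :
    (∀ v : Place (AlgebraicClosure ℚ) (modularFunctionFieldBar N), v.deg = 1) ∧
    (∀ D ∈ Divisor.principal (K := AlgebraicClosure ℚ) (F := modularFunctionFieldBar N),
      Divisor.degree D = 0) ∧
    ∃ γ : ℕ, ∀ D : Divisor (AlgebraicClosure ℚ) (modularFunctionFieldBar N),
      Divisor.degree D = γ →
        ∃ E : Divisor (AlgebraicClosure ℚ) (modularFunctionFieldBar N), (∀ v, 0 ≤ E v) ∧
          E - D ∈ Divisor.principal (K := AlgebraicClosure ℚ) (F := modularFunctionFieldBar N) :=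
  ⟨RIEM.deg_eq_one N, RIEM.degree_principal N, RIEM.exists_effective N⟩

end Fermat.Agent.S37
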