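import Fermat.Agent.S37.Deg.Res
import Fermat.Agent.S24.Degree
import Fermat.Agent.S24.A564.RHAssembly
import Fermat.Prelude.Def_ModularCurve_ReductionModL
import Fermat.Prelude.Def_FLTPrelim_Ramification

/-!
# S37 leaf RI-G: principal divisors are generated by integral ones

`ℓ ∤ N`: every `f ∈ F_N(ℚ̄)ˣ` is `c * a / b` with `c ∈ ℚ̄ˣ` and `a`, `b` having `A`-integral
`q`-expansions whose reductions are nonzero and lie in `modularFunctionFieldFullC k N`
((G) + P1.1 of origin/helper6262:notes/S18_route_helper6262.md; S28 saturation).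

FROZEN STATEMENT (package RI-G).  Proof: helper7251's `Deg.principalGeneratedByIntegral_modL`
(normal form `f = c * U / V` from the degree theorem in every characteristic prime to `N`)
+ existence of divisors of functions on `X₀(N)` over `ℚ̄` from the landed S24 tree
(`A564.exists_finset_sum_ord_eq_zero`).  Assembled by helper2262.
-/

set_option autoImplicit false

namespace Fermat.Agent.S37

open ModularCurve AlgebraicCurve

theorem principalGeneratedByIntegral (N : ℕ) [NeZero N] (ℓ : ℕ) (hℓ : ℓ.Prime) (hℓN : ¬ ℓ ∣ N)
    (A : ValuationSubring (AlgebraicClosure ℚ)) (hA : A.LiesOverPrime ℓ) :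
    PrincipalGeneratedByIntegral A (IsLocalRing.residue A) N := by
  classical
  refine Deg.principalGeneratedByIntegral_modL A N hℓ hℓN hA fun g _ => ?_
  have := Fermat.Agent.S24.finiteDimensional_jBar N
  obtain ⟨T, hT, -⟩ := Fermat.Agent.S24.A564.exists_finset_sum_ord_eq_zero
    (Fermat.Agent.S24.jBar N) (Fermat.Agent.S24.jBar_transcendental N) g
  exact ⟨Finsupp.onFinset T (fun v => v.ord g) (fun v hv => by by_contra h; exact hv (hT v h)),
    fun v => rfl⟩

end Fermat.Agent.S37
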