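import Fermat.Prelude.Def_ModularCurve_ReductionModL
import Fermat.Prelude.Def_FLTPrelim_Ramification
import Fermat.Agent.S37.RIR6652.Bind

/-!
# S37 leaf RI-R: existence of a place reduction map with conservation of number

`ℓ ∤ N`: the specialisation map `r : Pl(F_N(ℚ̄)) → Pl(modularFunctionFieldFullC k N)` exists and
satisfies `r_* div(y) = div(y mod 𝔪)` for `A`-integral `y` with nonzero reduction (Theorem T of
origin/helper6262:notes/S18_route_helper6262.md + (SPEC); notes of helper5442 §1, helper6051, helper232).

FROZEN STATEMENT (package RI-R).  Proof (helper6652): abstract Deuring theorem (helper6100) applied to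
the Gauss valuation ring of `Fb N` (RIR6652/GaussRing + Bind), lattice property from degree
conservation (RIR6652/LatticeGauss, R5), Riemann on both sides with one constant (helper3463 RINB,
helper4186 MODFF4186.genus_le), all on the frozen S18 exports RT / Red / T.
-/

set_option autoImplicit false

namespace Fermat.Agent.S37

open ModularCurve AlgebraicCurve

set_option synthInstance.maxHeartbeats 400000 in
theorem exists_isPlaceReductionModL (N : ℕ) [NeZero N] (ℓ : ℕ) (hℓ : ℓ.Prime) (hℓN : ¬ ℓ ∣ N)
    (A : ValuationSubring (AlgebraicClosure ℚ)) (hA : A.LiesOverPrime ℓ) :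
    ∃ r : Place (AlgebraicClosure ℚ) (modularFunctionFieldBar N) →
        Place (IsLocalRing.ResidueField A) (modularFunctionFieldFullC (IsLocalRing.ResidueField A) N),
      IsPlaceReductionModL A N r := by
  haveI : Fact ℓ.Prime := ⟨hℓ⟩
  exact RIR6652.exists_isPlaceReductionModL_bind hℓN hA

end Fermat.Agent.S37
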